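import Mathlib

/-!
# S12 / Abs : at most `ℓ` residues are fixed by the `ℓ`-power map
-/

set_option autoImplicit false

namespace Fermat.Agent.S12

universe u

variable {K : Type u} [Field K] (A : ValuationSubring K)

/-- Map `S` to the residue field `k = IsLocalRing.ResidueField A` (`x ↦ residue A ⟨x, hx⟩`): injective on
`S` by `hd` (`IsLocalRing.residue_eq_zero_iff`, `ValuationSubring.coe_mem_nonunits_iff` /
`A.mem_nonunits_iff_exists_mem_maximalIdeal`), the images are roots of `X ^ ℓ - X ∈ k[X]`, which is nonzero of degree `ℓ`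
(`Polynomial.card_roots'`, `FiniteField.X_pow_card_sub_X_natDegree_eq`, `..._ne_zero`). -/
theorem card_le_of_frob {ℓ : ℕ} (hℓ : 1 < ℓ) (S : Finset K) (hS : ∀ x ∈ S, x ∈ A)
    (hF : ∀ x ∈ S, x ^ ℓ - x ∈ A.nonunits)
    (hd : ∀ x ∈ S, ∀ y ∈ S, x ≠ y → x - y ∉ A.nonunits) : S.card ≤ ℓ := by
  classical
  have hres : ∀ a : A, IsLocalRing.residue A a = 0 ↔ (a : K) ∈ A.nonunits := by
    intro a
    rw [IsLocalRing.residue_eq_zero_iff, ValuationSubring.coe_mem_nonunits_iff]
  let f : K → IsLocalRing.ResidueField A :=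
    fun x => if h : x ∈ A then IsLocalRing.residue A ⟨x, h⟩ else 0
  have hf : ∀ x (h : x ∈ A), f x = IsLocalRing.residue A ⟨x, h⟩ := fun x h => dif_pos h
  have hinj : Set.InjOn f S := by
    intro x hx y hy hxy
    by_contra hne
    apply hd x hx y hy hne
    rw [hf x (hS x hx), hf y (hS y hy), ← sub_eq_zero, ← map_sub, hres] at hxy
    exact hxy
  have hP0 : (Polynomial.X ^ ℓ - Polynomial.X : Polynomial (IsLocalRing.ResidueField A)) ≠ 0 :=
    FiniteField.X_pow_card_sub_X_ne_zero _ hℓ
  have hsub : S.image f ⊆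
      (Polynomial.X ^ ℓ - Polynomial.X : Polynomial (IsLocalRing.ResidueField A)).roots.toFinset := by
    intro z hz
    obtain ⟨x, hx, rfl⟩ := Finset.mem_image.1 hz
    rw [Multiset.mem_toFinset, Polynomial.mem_roots hP0, Polynomial.IsRoot.def]
    simp only [Polynomial.eval_sub, Polynomial.eval_pow, Polynomial.eval_X]
    rw [hf x (hS x hx), ← map_pow, ← map_sub, hres]
    exact hF x hx
  calc S.card = (S.image f).card := (Finset.card_image_of_injOn hinj).symm
    _ ≤ _ := Finset.card_le_card hsub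
    _ ≤ Multiset.card
        (Polynomial.X ^ ℓ - Polynomial.X : Polynomial (IsLocalRing.ResidueField A)).roots :=
      Multiset.toFinset_card_le _
    _ ≤ (Polynomial.X ^ ℓ - Polynomial.X : Polynomial (IsLocalRing.ResidueField A)).natDegree :=
      Polynomial.card_roots' _
    _ = ℓ := FiniteField.X_pow_card_sub_X_natDegree_eq _ hℓ

/-- apply `card_le_of_frob` to `insert 0 S`. -/
theorem card_succ_le_of_frob {ℓ : ℕ} (hℓ : 1 < ℓ) (S : Finset K) (hS : ∀ x ∈ S, x ∈ A)
    (hF : ∀ x ∈ S, x ^ ℓ - x ∈ A.nonunits)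
    (hd : ∀ x ∈ S, ∀ y ∈ S, x ≠ y → x - y ∉ A.nonunits)
    (hu : ∀ x ∈ S, x ∉ A.nonunits) : S.card + 1 ≤ ℓ := by
  classical
  have h0n : (0 : K) ∈ A.nonunits := by
    rw [ValuationSubring.mem_nonunits_iff, map_zero]
    exact zero_lt_one
  have h0 : (0 : K) ∉ S := fun h => hu 0 h h0n
  rw [← Finset.card_insert_of_notMem h0]
  refine card_le_of_frob A hℓ (insert 0 S) ?_ ?_ ?_
  · intro x hx
    rcases Finset.mem_insert.1 hx with rfl | hx
    · exact A.zero_mem
    · exact hS x hx
  · intro x hx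
    rcases Finset.mem_insert.1 hx with rfl | hx
    · rw [zero_pow (by omega), sub_zero]
      exact h0n
    · exact hF x hx
  · intro x hx y hy hxy
    rcases Finset.mem_insert.1 hx with rfl | hx
    · rcases Finset.mem_insert.1 hy with rfl | hy
      · exact absurd rfl hxy
      · rw [zero_sub]
        intro h
        apply hu y hy
        rw [ValuationSubring.mem_nonunits_iff] at h ⊢
        rwa [Valuation.map_neg] at h
    · rcases Finset.mem_insert.1 hy with rfl | hy
      · rw [sub_zero]
        exact hu x hx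
      · exact hd x hx y hy hxy

end Fermat.Agent.S12
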