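import Fermat.Agent.S12.Abs.Diff
import Fermat.Agent.S12.Abs.Frob

/-!
# S12 / Abs : counting the abscissas of the multiples of a Frobenius-fixed point
-/

set_option autoImplicit false

namespace Fermat.Agent.S12

open Fermat.Agent.S05

universe u v

variable {K : Type u} [Field K] {G : Type v} [AddCommGroup G] (D : XiData K G)
  (A : ValuationSubring K)

/-- `k • U ≠ 0` for `p ∤ k`. -/
theorem nsmul_ne_zero_of_not_dvd {p : ℕ} (hp : p.Prime) {U : G} (hU : U ≠ 0) (hpU : p • U = 0)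
    {k : ℕ} (hk : ¬ p ∣ k) : k • U ≠ 0 := by
  haveI : Fact p.Prime := ⟨hp⟩
  have ho : addOrderOf U = p := addOrderOf_eq_prime hpU hU
  intro h
  apply hk
  rw [← ho]
  exact addOrderOf_dvd_of_nsmul_eq_zero h

/-- the set of abscissas. -/
theorem Count_core {p : ℕ} (hp : p.Prime) (hp2 : p ≠ 2) {U : G} (hU : U ≠ 0)
    (hpU : p • U = 0)
    (hx : ∀ k : ℕ, ¬ p ∣ k → D.ξ (k • U) ∈ A)
    (hψ : ∀ k : ℕ, ¬ p ∣ k → A.valuation (D.ψ (k • U)) = 1) :
    ∃ S : Finset K, 2 * S.card + 1 = p ∧ (∀ x ∈ S, ∃ k : ℕ, ¬ p ∣ k ∧ x = D.ξ (k • U)) ∧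
      (∀ x ∈ S, ∀ y ∈ S, x ≠ y → x - y ∉ A.nonunits) := by
  classical
  obtain ⟨m, hm⟩ : ∃ m, p = 2 * m + 1 := hp.eq_two_or_odd'.resolve_left hp2
  have hnd : ∀ k : ℕ, 0 < k → k < p → ¬ p ∣ k := fun k h0 h1 h =>
    absurd (Nat.le_of_dvd h0 h) (not_le.mpr h1)
  have hne : ∀ k : ℕ, 0 < k → k < p → k • U ≠ 0 := fun k h0 h1 =>
    nsmul_ne_zero_of_not_dvd hp hU hpU (hnd k h0 h1)
  -- `ξ (kU - jU) ∈ A`
  have hsub : ∀ k j : ℕ, j < k → k < p → k • U - j • U = (k - j) • U := by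
    intro k j hjk _
    rw [sub_eq_iff_eq_add, ← add_nsmul, Nat.sub_add_cancel hjk.le]
  have hinj : Set.InjOn (fun k : ℕ => D.ξ (k • U)) (Finset.Icc 1 m : Finset ℕ) := by
    have key : ∀ k j : ℕ, 1 ≤ k → k ≤ m → 1 ≤ j → j ≤ m → j < k →
        D.ξ (k • U) ≠ D.ξ (j • U) := by
      intro k j hk1 hk2 hj1 hj2 hjk h
      rcases D.eq_or_neg _ _ (hne k (by omega) (by omega)) (hne j (by omega) (by omega)) h
        with h | h
      · have h0 : (k - j) • U = 0 := by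
          rw [← hsub k j hjk (by omega), h, sub_self]
        exact hne (k - j) (by omega) (by omega) h0
      · have h0 : (k + j) • U = 0 := by
          rw [add_nsmul, h, neg_add_cancel]
        exact hne (k + j) (by omega) (by omega) h0
    intro k hk j hj h
    rw [Finset.coe_Icc, Set.mem_Icc] at hk hj
    rcases lt_trichotomy k j with hlt | heq | hgt
    · exact absurd h.symm (key j k hj.1 hj.2 hk.1 hk.2 hlt)
    · exact heq
    · exact absurd h (key k j hk.1 hk.2 hj.1 hj.2 hgt)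
  refine ⟨(Finset.Icc 1 m).image (fun k : ℕ => D.ξ (k • U)), ?_, ?_, ?_⟩
  · rw [Finset.card_image_of_injOn hinj, Nat.card_Icc]
    omega
  · intro x hx'
    obtain ⟨k, hk, rfl⟩ := Finset.mem_image.mp hx'
    rw [Finset.mem_Icc] at hk
    exact ⟨k, hnd k (by omega) (by omega), rfl⟩
  · intro x hx' y hy' hxy
    obtain ⟨k, hk, rfl⟩ := Finset.mem_image.mp hx'
    obtain ⟨j, hj, rfl⟩ := Finset.mem_image.mp hy'
    rw [Finset.mem_Icc] at hk hj
    have hkj : k ≠ j := fun h => hxy (by rw [h])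
    refine unit_diff D A (hne k (by omega) (by omega)) (hne j (by omega) (by omega)) hxy
      (hx k (hnd k (by omega) (by omega))) (hx j (hnd j (by omega) (by omega))) ?_ ?_
      (hψ k (hnd k (by omega) (by omega))) (hψ j (hnd j (by omega) (by omega)))
    · rw [← add_nsmul]
      exact hx (k + j) (hnd (k + j) (by omega) (by omega))
    · rcases lt_or_gt_of_ne hkj with hlt | hgt
      · have : k • U - j • U = -((j - k) • U) := by
          rw [← hsub j k hlt (by omega), neg_sub]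
        rw [this, D.ξ_neg]
        exact hx (j - k) (hnd (j - k) (by omega) (by omega))
      · rw [hsub k j hgt (by omega)]
        exact hx (k - j) (hnd (k - j) (by omega) (by omega))

/-- `S = image (fun k => ξ (k • U)) (Finset.Icc 1 ((p-1)/2))` has `(p-1)/2` elements
(`ξ(kU) = ξ(jU)` gives `kU = ± jU` (`D.eq_or_neg`), so `p ∣ k - j` or `p ∣ k + j`, so `k = j`), pairwise differences are
units (`unit_diff` with `P = kU`, `Q = jU`, `P + Q = (k+j)U`, `P - Q = ±(k-j)U`, `D.ξ_neg`). Then `card_le_of_frob`. -/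
theorem count {p ℓ : ℕ} (hp : p.Prime) (hp2 : p ≠ 2) (hℓ : 1 < ℓ) {U : G} (hU : U ≠ 0)
    (hpU : p • U = 0)
    (hx : ∀ k : ℕ, ¬ p ∣ k → D.ξ (k • U) ∈ A)
    (hψ : ∀ k : ℕ, ¬ p ∣ k → A.valuation (D.ψ (k • U)) = 1)
    (hF : ∀ k : ℕ, ¬ p ∣ k → D.ξ (k • U) ^ ℓ - D.ξ (k • U) ∈ A.nonunits) :
    p - 1 ≤ 2 * ℓ := by
  obtain ⟨S, hcard, hS, hd⟩ := Count_core D A hp hp2 hU hpU hx hψ
  have := card_le_of_frob A hℓ S
    (fun x hx' => by obtain ⟨k, hk, rfl⟩ := hS x hx'; exact hx k hk)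
    (fun x hx' => by obtain ⟨k, hk, rfl⟩ := hS x hx'; exact hF k hk) hd
  omega

/-- the same with `card_succ_le_of_frob`. -/
theorem count_unit {p ℓ : ℕ} (hp : p.Prime) (hp2 : p ≠ 2) (hℓ : 1 < ℓ) {U : G} (hU : U ≠ 0)
    (hpU : p • U = 0)
    (hx : ∀ k : ℕ, ¬ p ∣ k → D.ξ (k • U) ∈ A)
    (hψ : ∀ k : ℕ, ¬ p ∣ k → A.valuation (D.ψ (k • U)) = 1)
    (hF : ∀ k : ℕ, ¬ p ∣ k → D.ξ (k • U) ^ ℓ - D.ξ (k • U) ∈ A.nonunits)
    (hu : ∀ k : ℕ, ¬ p ∣ k → D.ξ (k • U) ∉ A.nonunits) :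
    p + 1 ≤ 2 * ℓ := by
  obtain ⟨S, hcard, hS, hd⟩ := Count_core D A hp hp2 hU hpU hx hψ
  have := card_succ_le_of_frob A hℓ S
    (fun x hx' => by obtain ⟨k, hk, rfl⟩ := hS x hx'; exact hx k hk)
    (fun x hx' => by obtain ⟨k, hk, rfl⟩ := hS x hx'; exact hF k hk) hd
    (fun x hx' => by obtain ⟨k, hk, rfl⟩ := hS x hx'; exact hu k hk)
  omega

end Fermat.Agent.S12
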