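import Fermat.Agent.S05.XiData
import Fermat.Agent.S05.Val

/-!
# S12 / Abs : the difference formula and units
-/

set_option autoImplicit false

namespace Fermat.Agent.S12

open Fermat.Agent.S05

universe u v

variable {K : Type u} [Field K] {G : Type v} [AddCommGroup G] (D : XiData K G)
  (A : ValuationSubring K)

/-- `D.add_formula` minus `D.sub_formula`, cancel `4` (as in `XiData.sum_formula`). -/
theorem diff_formula {P Q : G} (hP : P ≠ 0) (hQ : Q ≠ 0) (h : D.ξ P ≠ D.ξ Q) :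
    (D.ξ (P + Q) - D.ξ (P - Q)) * (D.ξ P - D.ξ Q) ^ 2 = -(D.ψ P * D.ψ Q) := by
  have h1 := D.add_formula P Q hP hQ h
  have h2 := D.sub_formula hP hQ h
  have h4 : (4 : K) ≠ 0 := by
    have : (4 : K) = 2 * 2 := by norm_num
    rw [this]
    exact mul_ne_zero D.two_ne D.two_ne
  apply mul_left_cancel₀ h4
  linear_combination h1 - h2

/-- `(integral) * (ξP - ξQ)² = unit` and `ξP - ξQ` integral. -/
theorem unit_diff {P Q : G} (hP : P ≠ 0) (hQ : Q ≠ 0) (h : D.ξ P ≠ D.ξ Q)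
    (hxP : D.ξ P ∈ A) (hxQ : D.ξ Q ∈ A) (hs : D.ξ (P + Q) ∈ A) (hd : D.ξ (P - Q) ∈ A)
    (hψP : A.valuation (D.ψ P) = 1) (hψQ : A.valuation (D.ψ Q) = 1) :
    D.ξ P - D.ξ Q ∉ A.nonunits := by
  intro hmem
  have h1 := diff_formula D hP hQ h
  have h2 := congrArg A.valuation h1
  rw [map_mul, map_pow, Valuation.map_neg, map_mul, hψP, hψQ, mul_one] at h2
  have h3 : A.valuation (D.ξ (P + Q) - D.ξ (P - Q)) ≤ 1 :=
    (A.valuation_le_one_iff _).2 (A.sub_mem hs hd)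
  have h4 : A.valuation (D.ξ P - D.ξ Q) < 1 := (A.mem_nonunits_iff).1 hmem
  have h5 : A.valuation (D.ξ P - D.ξ Q) ^ 2 < 1 := pow_lt_one₀ zero_le h4 two_ne_zero
  have h6 : A.valuation (D.ξ (P + Q) - D.ξ (P - Q)) * A.valuation (D.ξ P - D.ξ Q) ^ 2 < 1 :=
    lt_of_le_of_lt (mul_le_of_le_one_left' h3) h5
  rw [h2] at h6
  exact lt_irrefl _ h6

end Fermat.Agent.S12
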