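import Fermat.Agent.S13.Local

/-!
# S12 / Abs (C1) : at a multiplicative place, `E₀[p] ≠ 0`
-/

set_option autoImplicit false

namespace Fermat.Agent.S12

open Fermat.Agent.S05 Fermat.Agent.S13

universe u v

variable {K : Type u} [Field K] {G : Type v} [AddCommGroup G] (D : XiData K G)
  (A : ValuationSubring K)

/-- **(C1)**.  By contradiction: every `R ∈ E[p] ∖ 0` has `ξ R ∈ 𝔪`, so `ξ R ≠ 0` and `w(c) < w(ξ R) < 1`
(`S13.div_mem_nonunits_of_not_E0`).  Let `P₀` maximise `w(ξ ·)` on the finite set `E[p] ∖ 0`, let `Q₀` maximise it on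
`E[p] ∖ {k • P₀}` (nonempty by `hnc`), `γ = w(ξ P₀) ≥ δ = w(ξ Q₀)`.  `Q₀ ± P₀ ∈ E[p] ∖ {k • P₀}`, so `w(ξ(Q₀ ± P₀)) ≤ δ`.
`ξ Q₀ ≠ ξ P₀` (`D.eq_or_neg`; `-P₀ = (p-1) • P₀`).  `D.sum_formula`:
`(ξ(Q₀+P₀) + ξ(Q₀-P₀)) (ξQ₀ - ξP₀)² = 2 (ξQ₀ + ξP₀)(ξQ₀ ξP₀ + c) + B ξQ₀ ξP₀`; the right side has valuation exactly `δγ`
(`w(B) = 1`; `w(2(ξQ₀+ξP₀)(ξQ₀ξP₀ + c)) ≤ γ max(δγ, w c) < δγ`), `w(ξQ₀ - ξP₀)² ≤ γ²`, so
`δγ ≤ w(ξ(Q₀+P₀) + ξ(Q₀-P₀)) γ² ≤ δ γ² < δγ`.  Contradiction. -/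
theorem exists_E0_torsion (hB : A.valuation D.B = 1) (hc : D.c ∈ A.nonunits)
    {T : G} (hT : T ≠ 0) (hξT : D.ξ T = 0) {p : ℕ} (hp : p.Prime) (hp2 : p ≠ 2)
    (hfin : {R : G | p • R = 0}.Finite)
    (hnc : ∀ P₀ : G, ∃ R : G, p • R = 0 ∧ ∀ k : ℕ, R ≠ k • P₀) :
    ∃ U : G, U ≠ 0 ∧ p • U = 0 ∧ D.ξ U ∉ A.nonunits := by
  classical
  by_contra hcon
  push Not at hcon
  have hn : Odd p := hp.odd_of_ne_two hp2
  have hp1 : 1 ≤ p := hp.one_lt.le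
  have hBA : D.B ∈ A := (A.valuation_le_one_iff _).mp hB.le
  set w := A.valuation with hw
  have hlt : ∀ P : G, P ≠ 0 → p • P = 0 → w (D.ξ P) < 1 := fun P hP hnP =>
    (A.mem_nonunits_iff).mp (hcon P hP hnP)
  -- `P₀`
  have hS : {P : G | p • P = 0 ∧ P ≠ 0}.Finite := hfin.subset fun P hP => hP.1
  have hSne : {P : G | p • P = 0 ∧ P ≠ 0}.Nonempty := by
    obtain ⟨Q, hQ, hQ'⟩ := hnc 0
    exact ⟨Q, hQ, fun h => hQ' 0 (by rw [h, zero_smul])⟩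
  obtain ⟨P₀, ⟨hnP₀, hP₀⟩, hmax₀⟩ := Set.exists_max_image _ (fun P => w (D.ξ P)) hS hSne
  have hneg : -P₀ = (p - 1) • P₀ := by
    have h1 : (p - 1) • P₀ + P₀ = 0 := by
      rw [← succ_nsmul, Nat.sub_add_cancel hp1, hnP₀]
    exact (eq_neg_of_add_eq_zero_left h1).symm
  -- `Q`
  have hS' : {Q : G | p • Q = 0 ∧ ∀ k : ℕ, Q ≠ k • P₀}.Finite :=
    hfin.subset fun P hP => hP.1
  obtain ⟨Q, ⟨hnQ, hQ⟩, hmax⟩ := Set.exists_max_image _ (fun P => w (D.ξ P)) hS' (hnc P₀)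
  have hQ0 : Q ≠ 0 := fun h => hQ 0 (by rw [h, zero_smul])
  have hne : D.ξ Q ≠ D.ξ P₀ := by
    intro h
    rcases D.eq_or_neg Q P₀ hQ0 hP₀ h with h | h
    · exact hQ 1 (by rw [h, one_smul])
    · exact hQ (p - 1) (by rw [h, hneg])
  have hadd : p • (Q + P₀) = 0 ∧ ∀ k : ℕ, Q + P₀ ≠ k • P₀ := by
    refine ⟨by rw [smul_add, hnQ, hnP₀, add_zero], fun k h => hQ (k + (p - 1)) ?_⟩
    rw [add_smul, ← hneg, ← h, add_neg_cancel_right]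
  have hsub : p • (Q - P₀) = 0 ∧ ∀ k : ℕ, Q - P₀ ≠ k • P₀ := by
    refine ⟨by rw [smul_sub, hnQ, hnP₀, sub_zero], fun k h => hQ (k + 1) ?_⟩
    rw [succ_nsmul, ← h, sub_add_cancel]
  have hsum := D.sum_formula hQ0 hP₀ hne
  obtain ⟨x, hx⟩ : ∃ x, x = D.ξ Q := ⟨_, rfl⟩
  obtain ⟨x₀, hx₀⟩ : ∃ x, x = D.ξ P₀ := ⟨_, rfl⟩
  obtain ⟨s, hs⟩ : ∃ s, s = D.ξ (Q + P₀) + D.ξ (Q - P₀) := ⟨_, rfl⟩
  rw [← hx, ← hx₀, ← hs] at hsum
  have h1 : w x ≤ w x₀ := by rw [hx, hx₀]; exact hmax₀ Q ⟨hnQ, hQ0⟩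
  have h2 : w x₀ < 1 := by rw [hx₀]; exact hlt P₀ hP₀ hnP₀
  obtain ⟨hx0, hcx⟩ := div_mem_nonunits_of_not_E0 D A hBA hc hT hξT hn hnQ hQ0 (hcon Q hQ0 hnQ)
  rw [← hx] at hx0 hcx
  have hwx : 0 < w x := zero_lt_iff.mpr ((w.ne_zero_iff).mpr hx0)
  have hwx₀ : 0 < w x₀ := lt_of_lt_of_le hwx h1
  have h3 : w D.c < w x := by
    have := (A.mem_nonunits_iff).mp hcx
    rw [map_div₀] at this
    exact (div_lt_one₀ hwx).mp this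
  have hs_le : w s ≤ w x := by
    rw [hs, hx]
    exact le_trans (w.map_add _ _) (max_le (hmax _ hadd) (hmax _ hsub))
  -- the right hand side
  have h2le : w (2 : K) ≤ 1 := (A.valuation_le_one_iff _).mpr (by
    have : (2 : K) = 1 + 1 := by norm_num
    rw [this]; exact add_mem (one_mem _) (one_mem _))
  have hmain : w (D.B * (x * x₀)) = w x * w x₀ := by rw [map_mul, map_mul, hB, one_mul]
  have hsmall : w (2 * (x + x₀) * (x * x₀ + D.c)) < w x * w x₀ := by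
    have e1 : w (x + x₀) ≤ w x₀ := le_trans (w.map_add _ _) (max_le h1 le_rfl)
    have e2 : w (x * x₀ + D.c) < w x := by
      refine lt_of_le_of_lt (w.map_add _ _) (max_lt ?_ h3)
      rw [map_mul]
      calc w x * w x₀ < w x * 1 := mul_lt_mul_of_pos_left h2 hwx
        _ = w x := mul_one _
    rw [map_mul, map_mul]
    calc w 2 * w (x + x₀) * w (x * x₀ + D.c) ≤ 1 * w x₀ * w (x * x₀ + D.c) := by
          gcongr
      _ = w x₀ * w (x * x₀ + D.c) := by rw [one_mul]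
      _ < w x₀ * w x := mul_lt_mul_of_pos_left e2 hwx₀
      _ = w x * w x₀ := mul_comm _ _
  have hrhs : w (2 * (x + x₀) * (x * x₀ + D.c) + D.B * (x * x₀)) = w x * w x₀ := by
    rw [← hmain] at hsmall ⊢
    exact w.map_add_eq_of_lt_right hsmall
  rw [← hsum, map_mul, map_pow] at hrhs
  have e3 : w (x - x₀) ≤ w x₀ := le_trans (w.map_sub _ _) (max_le h1 le_rfl)
  have e4 : w x * w x₀ ≤ (w x * w x₀) * w x₀ := by
    calc w x * w x₀ = w s * w (x - x₀) ^ 2 := hrhs.symm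
      _ ≤ w x * w x₀ ^ 2 := by gcongr
      _ = (w x * w x₀) * w x₀ := by rw [sq, mul_assoc]
  have e5 : (w x * w x₀) * w x₀ < (w x * w x₀) * 1 :=
    mul_lt_mul_of_pos_left h2 (mul_pos hwx hwx₀)
  rw [mul_one] at e5
  exact absurd e4 (not_le.mpr e5)

end Fermat.Agent.S12
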