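import Mathlib

/-!
# S12 / Abs : `τ - 1 : E[p] → ⟨Q⟩` is not injective
-/

set_option autoImplicit false

namespace Fermat.Agent.S12

universe v

variable {G : Type v} [AddCommGroup G]

/-- the set `{k • Q | k < p}` has at most `p` elements. -/
theorem Fixed_ncard_image_le (p : ℕ) (Q : G) :
    ((fun k : ℕ => k • Q) '' (Set.Iio p)).ncard ≤ p := by
  refine (Set.ncard_image_le (Set.finite_Iio p)).trans ?_
  rw [← Finset.coe_Iio, Set.ncard_coe_finset]
  simp

/-- every multiple of `Q` is of the form `k • Q`, `k < p`. -/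
theorem Fixed_mem_image {p : ℕ} (hp : 0 < p) {Q : G} (hpQ : p • Q = 0) (k : ℕ) :
    k • Q ∈ (fun k : ℕ => k • Q) '' (Set.Iio p) := by
  refine ⟨k % p, Nat.mod_lt _ hp, ?_⟩
  change (k % p) • Q = k • Q
  conv_rhs => rw [← Nat.div_add_mod k p, add_smul, mul_comm, mul_smul, hpQ, smul_zero, zero_add]

/-- more than `p` points are killed by `p`: no cyclic group contains them all
(`{k • P₀}` restricted to `E[p]`: if `R = k • P₀` for all `R` in `E[p]` then ... careful: `P₀` need not be in `E[p]`;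
use: the subgroup `E[p] ∩ ⟨P₀⟩` of the cyclic group `⟨P₀⟩` is cyclic and killed by `p`, so it has at most `p` elements;
e.g. `IsCyclic.card_nsmul_eq_zero_le`-type lemmas (`IsAddCyclic.card_nsmul_eq_zero_le`), or directly). -/
theorem not_cyclic_of_card {p : ℕ} (hp : p.Prime) (hfin : {R : G | p • R = 0}.Finite)
    (hcard : p < {R : G | p • R = 0}.ncard) (P₀ : G) :
    ∃ R : G, p • R = 0 ∧ ∀ k : ℕ, R ≠ k • P₀ := by
  by_contra hcon
  push Not at hcon
  -- the torsion subgroup
  let T : AddSubgroup G := (nsmulAddMonoidHom (α := G) p).ker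
  have hT : ∀ R : G, R ∈ T ↔ p • R = 0 := fun R => by
    simp [T, AddMonoidHom.mem_ker]
  have hle : T ≤ AddSubgroup.zmultiples P₀ := by
    intro R hR
    obtain ⟨k, hk⟩ := hcon R ((hT R).1 hR)
    rw [hk]
    exact AddSubgroup.nsmul_mem _ (AddSubgroup.mem_zmultiples P₀) k
  have hcyc : IsAddCyclic T :=
    isAddCyclic_of_injective (AddSubgroup.inclusion hle) (AddSubgroup.inclusion_injective hle)
  obtain ⟨g, hg⟩ := hcyc.exists_generator
  have hpg : p • (g : G) = 0 := (hT g).1 g.2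
  have hsub : {R : G | p • R = 0} ⊆ (fun k : ℕ => k • (g : G)) '' (Set.Iio p) := by
    intro R hR
    have hRT : R ∈ T := (hT R).2 hR
    obtain ⟨m, hm⟩ := AddSubgroup.mem_zmultiples_iff.1 (hg ⟨R, hRT⟩)
    have hm' : m • (g : G) = R := by
      have := congrArg (Subtype.val) hm
      simpa using this
    -- reduce `m` modulo `p`
    have h1 : (m % (p : ℤ)).toNat • (g : G) = R := by
      have hnn : 0 ≤ m % (p : ℤ) := Int.emod_nonneg _ (by exact_mod_cast hp.ne_zero)
      rw [← natCast_zsmul, Int.toNat_of_nonneg hnn, ← hm']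
      conv_rhs => rw [← Int.mul_ediv_add_emod m p, add_smul, mul_comm, mul_smul, natCast_zsmul,
        hpg, smul_zero, zero_add]
    rw [← h1]
    exact Fixed_mem_image hp.pos hpg _
  have h2 := Set.ncard_le_ncard hsub ((Set.finite_Iio p).image _)
  exact absurd (h2.trans (Fixed_ncard_image_le p (g : G))) (not_le.2 hcard)

/-- pigeonhole (`Finset.exists_ne_map_eq_of_card_lt_of_maps_to` / `Set.exists_ne_map_eq_of_ncard_lt_of_maps_to`):
`R ↦ τ R - R` maps `E[p]` (more than `p` elements) to `{k • Q | k < p}` (at most `p` elements; reduce `k` mod `p`);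
if `τ R₁ - R₁ = τ R₂ - R₂` then `U = R₁ - R₂` is fixed. -/
theorem exists_fixed {p : ℕ} (hp : 0 < p) (hfin : {R : G | p • R = 0}.Finite)
    (hcard : p < {R : G | p • R = 0}.ncard) (τ : G →+ G) {Q : G} (hpQ : p • Q = 0)
    (hcof : ∀ R : G, p • R = 0 → ∃ k : ℕ, τ R - R = k • Q) :
    ∃ U : G, U ≠ 0 ∧ p • U = 0 ∧ τ U = U := by
  obtain ⟨x, hx, y, hy, hxy, hf⟩ := Set.exists_ne_map_eq_of_ncard_lt_of_maps_to
    (s := {R : G | p • R = 0}) (t := (fun k : ℕ => k • Q) '' (Set.Iio p))
    ((Fixed_ncard_image_le p Q).trans_lt hcard) (f := fun R => τ R - R)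
    (fun R hR => by
      obtain ⟨k, hk⟩ := hcof R hR
      rw [hk]
      exact Fixed_mem_image hp hpQ k) ((Set.finite_Iio p).image _)
  refine ⟨x - y, sub_ne_zero.2 hxy, ?_, ?_⟩
  · rw [smul_sub, (hx : p • x = 0), (hy : p • y = 0), sub_zero]
  · have hf' : τ x - x = τ y - y := hf
    rw [map_sub]
    have : τ x - τ y - (x - y) = 0 := by
      have h3 : τ x - τ y - (x - y) = (τ x - x) - (τ y - y) := by abel
      rw [h3, hf', sub_self]
    exact sub_eq_zero.1 this

end Fermat.Agent.S12
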