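import Fermat.Agent.S12.Abs.Count
import Fermat.Agent.S12.Abs.Fixed
import Fermat.Agent.S05.Integral
import Fermat.Agent.S13.Local

/-!
# S12 / Abs : a place `A ∤ p` of good reduction
-/

set_option autoImplicit false

namespace Fermat.Agent.S12

open Fermat.Agent.S05 Fermat.Agent.S13

universe u v

variable {K : Type u} [Field K] {G : Type v} [AddCommGroup G] (D : XiData K G)
  (A : ValuationSubring K)

/-- all `ψ` of nonzero `p`-torsion points with nonsingular reduction are units: `XiData.ξ_mem_of_torsion` (for `R` and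
`R + R`), `S13.loc_dbl_ne_zero`, `S13.ψ_unit'`. -/
theorem ψ_unit_of_torsion (hB : D.B ∈ A) (hc : D.c ∈ A)
    (hdisc : A.valuation (D.B ^ 2 - 64 * D.c) = 1) {p : ℕ} (hp : p.Prime) (hp2 : p ≠ 2)
    (hpA : (p : K) ∉ A.nonunits) {R : G} (hR : R ≠ 0) (hpR : p • R = 0)
    (h : D.ξ R ∉ A.nonunits ∨ D.c ∉ A.nonunits) : A.valuation (D.ψ R) = 1 := by
  have h2R : R + R ≠ 0 := loc_dbl_ne_zero (hp.odd_of_ne_two hp2) hpR hR
  exact ψ_unit' D A hB hc hdisc hR h2R (D.ξ_mem_of_torsion A hB hc hp hp2 hpA hR hpR)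
    (D.ξ_mem_of_torsion A hB hc hp hp2 hpA h2R (by rw [smul_add, hpR, add_zero])) h

/-- **good reduction**: `exists_fixed` gives `U ≠ 0` in `E[p]` with `τ U = U`; `τ (k • U) = k • U`, so
`σ (ξ (kU)) = ξ (kU)` and `ξ(kU)^ℓ - ξ(kU) = -(σ (ξ(kU)) - ξ(kU)^ℓ) ∈ 𝔪`; `count`. -/
theorem abs_good (hB : D.B ∈ A) (hc : D.c ∈ A) (hdisc : A.valuation (D.B ^ 2 - 64 * D.c) = 1)
    (hcu : D.c ∉ A.nonunits)
    {p ℓ : ℕ} (hp : p.Prime) (hp2 : p ≠ 2) (hpA : (p : K) ∉ A.nonunits) (hℓ : 1 < ℓ)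
    (hfin : {R : G | p • R = 0}.Finite) (hcard : p < {R : G | p • R = 0}.ncard)
    (σ : K →+* K) (τ : G →+ G) (hσF : ∀ x ∈ A, σ x - x ^ ℓ ∈ A.nonunits)
    (hτξ : ∀ R, R ≠ 0 → D.ξ (τ R) = σ (D.ξ R))
    {Q : G} (hpQ : p • Q = 0) (hcof : ∀ R : G, p • R = 0 → ∃ k : ℕ, τ R - R = k • Q) :
    p - 1 ≤ 2 * ℓ := by
  obtain ⟨U, hU, hpU, hτU⟩ := exists_fixed hp.pos hfin hcard τ hpQ hcof
  have hne : ∀ k : ℕ, ¬ p ∣ k → k • U ≠ 0 := fun k hk => nsmul_ne_zero_of_not_dvd hp hU hpU hk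
  have hpk : ∀ k : ℕ, p • (k • U) = 0 := fun k => by rw [smul_comm, hpU, smul_zero]
  have hx : ∀ k : ℕ, ¬ p ∣ k → D.ξ (k • U) ∈ A := fun k hk =>
    D.ξ_mem_of_torsion A hB hc hp hp2 hpA (hne k hk) (hpk k)
  refine count D A hp hp2 hℓ hU hpU hx (fun k hk =>
    ψ_unit_of_torsion D A hB hc hdisc hp hp2 hpA (hne k hk) (hpk k) (Or.inr hcu)) (fun k hk => ?_)
  have h1 := hσF _ (hx k hk)
  have h2 : σ (D.ξ (k • U)) = D.ξ (k • U) := by
    rw [← hτξ _ (hne k hk), map_nsmul, hτU]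
  rw [h2, ValuationSubring.mem_nonunits_iff] at h1
  rw [ValuationSubring.mem_nonunits_iff, ← neg_sub, Valuation.map_neg]
  exact h1

end Fermat.Agent.S12
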