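import Fermat.Agent.S12.Abs.Good
import Fermat.Agent.S12.Abs.EZero

/-!
# S12 / Abs : the local dichotomy at a place `A ∤ p` of multiplicative reduction
-/

set_option autoImplicit false

namespace Fermat.Agent.S12

open Fermat.Agent.S05 Fermat.Agent.S13

universe u v

variable {K : Type u} [Field K] {G : Type v} [AddCommGroup G] (D : XiData K G)
  (A : ValuationSubring K)

/-- `w(B) = 1` -/
lemma Mult_val_B (hB : D.B ∈ A) (hc : D.c ∈ A.nonunits)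
    (hdisc : A.valuation (D.B ^ 2 - 64 * D.c) = 1) : A.valuation D.B = 1 := by
  rw [val_eq_one_iff]
  refine ⟨hB, fun hBn => ?_⟩
  apply not_nonunits_of_val_eq_one A hdisc
  have h1 : D.B ^ 2 ∈ A.nonunits := by
    rw [pow_two]
    exact nonunits_mul_mem A hBn hB
  have h2 : 64 * D.c ∈ A.nonunits := mem_mul_nonunits A (ofNat_mem A 64) hc
  rw [A.mem_nonunits_iff] at h1 h2 ⊢
  exact lt_of_le_of_lt (Valuation.map_sub _ _ _) (max_lt h1 h2)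

/-- a multiple `k • Q`, `p ∤ k`, generates `Q` back -/
lemma Mult_exists_inv {p : ℕ} (hp : p.Prime) {Q : G} (hpQ : p • Q = 0) {k : ℕ} (hk : ¬ p ∣ k) :
    ∃ k' : ℕ, k' • (k • Q) = Q := by
  have hcop : Nat.Coprime k p := ((Nat.Prime.coprime_iff_not_dvd hp).2 hk).symm
  obtain ⟨m, -, hm⟩ := Nat.exists_mul_mod_eq_one_of_coprime hcop hp.one_lt
  refine ⟨m, ?_⟩
  rw [smul_smul, mul_comm, ← Nat.div_add_mod (k * m) p, hm, add_smul, mul_smul, one_smul, smul_comm,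
    hpQ, smul_zero, zero_add]

/-- **multiplicative reduction**.  `w(B) = 1` from `hdisc`, `hc`.  If `ξ Q ∉ 𝔪`: `Q ∈ E₀ = D.E0 A hB hc`, so all `k • Q ∈ E₀`,
left alternative by `ψ_unit_of_torsion`.  If `ξ Q ∈ 𝔪`: for `p ∤ k`, `ξ (kQ) ∈ 𝔪` (else `kQ ∈ E₀` and `Q = k'(kQ) ∈ E₀`,
`k k' ≡ 1 mod p`).  Let `U` be given by `exists_E0_torsion` (`not_cyclic_of_card`).  `τ U ∈ E₀`
(`ξ (τ U) = σ (ξ U)`; `σ x ∈ 𝔪 ↔ x ∈ 𝔪` from `hσA`), `τ U - U = k • Q ∈ E₀` forces `k • Q = 0`: `τ U = U`.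
Then `count_unit` for `U` (`jU ∈ E₀`; `ψ_unit_of_torsion`). -/
theorem abs_mult (hB : D.B ∈ A) (hc : D.c ∈ A.nonunits)
    (hdisc : A.valuation (D.B ^ 2 - 64 * D.c) = 1)
    {T : G} (hT : T ≠ 0) (hξT : D.ξ T = 0)
    {p ℓ : ℕ} (hp : p.Prime) (hp2 : p ≠ 2) (hpA : (p : K) ∉ A.nonunits) (hℓ : 1 < ℓ)
    (hfin : {R : G | p • R = 0}.Finite) (hcard : p < {R : G | p • R = 0}.ncard)
    (σ : K →+* K) (τ : G →+ G) (hσA : ∀ x, σ x ∈ A ↔ x ∈ A)
    (hσF : ∀ x ∈ A, σ x - x ^ ℓ ∈ A.nonunits)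
    (hτξ : ∀ R, R ≠ 0 → D.ξ (τ R) = σ (D.ξ R)) (hτ0 : ∀ R, R ≠ 0 → τ R ≠ 0)
    {Q : G} (hQ : Q ≠ 0) (hpQ : p • Q = 0)
    (hcof : ∀ R : G, p • R = 0 → ∃ k : ℕ, τ R - R = k • Q) :
    (∀ k : ℕ, ¬ p ∣ k → A.valuation (D.ψ (k • Q)) = 1) ∨
      (p + 1 ≤ 2 * ℓ ∧ ∀ k : ℕ, ¬ p ∣ k → D.ξ (k • Q) ∈ A.nonunits) := by
  have hcA : D.c ∈ A := mem_of_nonunits A hc
  have hpk : ∀ (R : G) (k : ℕ), p • R = 0 → p • (k • R) = 0 := by
    intro R k h
    rw [smul_comm, h, smul_zero]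
  -- units for the multiples of a point of `E₀`
  have hE0 : ∀ R : G, R ≠ 0 → p • R = 0 → D.ξ R ∉ A.nonunits → ∀ k : ℕ, ¬ p ∣ k →
      D.ξ (k • R) ∉ A.nonunits := by
    intro R hR hpR hξ k hk
    have hmem : k • R ∈ D.E0 A hB hc := (D.E0 A hB hc).nsmul_mem (Or.inr hξ) k
    exact hmem.resolve_left (nsmul_ne_zero_of_not_dvd hp hR hpR hk)
  by_cases hξQ : D.ξ Q ∈ A.nonunits
  · right
    have hall : ∀ k : ℕ, ¬ p ∣ k → D.ξ (k • Q) ∈ A.nonunits := by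
      intro k hk
      by_contra hcon
      obtain ⟨k', hk'⟩ := Mult_exists_inv hp hpQ hk
      have hmem : k' • (k • Q) ∈ D.E0 A hB hc := (D.E0 A hB hc).nsmul_mem (Or.inr hcon) k'
      rw [hk'] at hmem
      exact (hmem.resolve_left hQ) hξQ
    refine ⟨?_, hall⟩
    obtain ⟨U, hU, hpU, hξU⟩ := exists_E0_torsion D A (Mult_val_B D A hB hc hdisc) hc hT hξT hp hp2
      hfin (not_cyclic_of_card hp hfin hcard)
    -- `σ` preserves non-nonunits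
    have hσn : ∀ x, x ∉ A.nonunits → σ x ∉ A.nonunits := by
      intro x hx
      rw [not_nonunits_iff] at hx ⊢
      refine ⟨(map_ne_zero σ).2 hx.1, ?_⟩
      rw [← map_inv₀, hσA]
      exact hx.2
    have hτU : τ U = U := by
      obtain ⟨k, hk⟩ := hcof U hpU
      have h1 : τ U ∈ D.E0 A hB hc := Or.inr (by rw [hτξ U hU]; exact hσn _ hξU)
      have h2 : k • Q ∈ D.E0 A hB hc := by
        rw [← hk]
        exact (D.E0 A hB hc).sub_mem h1 (Or.inr hξU)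
      have h3 : k • Q = 0 := by
        rcases h2 with h | h
        · exact h
        · by_cases hpk' : p ∣ k
          · obtain ⟨m, rfl⟩ := hpk'
            rw [mul_comm, mul_smul, hpQ, smul_zero]
          · exact absurd (hall k hpk') h
      rw [h3] at hk
      exact sub_eq_zero.1 hk
    have hne : ∀ k : ℕ, ¬ p ∣ k → k • U ≠ 0 := fun k hk => nsmul_ne_zero_of_not_dvd hp hU hpU hk
    have hx : ∀ k : ℕ, ¬ p ∣ k → D.ξ (k • U) ∈ A := fun k hk =>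
      D.ξ_mem_of_torsion A hB hcA hp hp2 hpA (hne k hk) (hpk U k hpU)
    refine count_unit D A hp hp2 hℓ hU hpU hx
      (fun k hk => ψ_unit_of_torsion D A hB hcA hdisc hp hp2 hpA (hne k hk) (hpk U k hpU)
        (Or.inl (hE0 U hU hpU hξU k hk)))
      (fun k hk => ?_) (hE0 U hU hpU hξU)
    have h1 := hσF _ (hx k hk)
    rw [← hτξ _ (hne k hk), map_nsmul, hτU] at h1
    have h2 : D.ξ (k • U) ^ ℓ - D.ξ (k • U) = -(D.ξ (k • U) - D.ξ (k • U) ^ ℓ) := by ring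
    rw [h2, A.mem_nonunits_iff, Valuation.map_neg, ← A.mem_nonunits_iff]
    exact h1
  · left
    intro k hk
    exact ψ_unit_of_torsion D A hB hcA hdisc hp hp2 hpA (nsmul_ne_zero_of_not_dvd hp hQ hpQ hk)
      (hpk Q k hpQ) (Or.inl (hE0 Q hQ hpQ hξQ k hk))

end Fermat.Agent.S12
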